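/-
S48 wall (W), block P, leaf P4' (helper78): **the product eigenvector**.

From the Teichmüller character `ω` (P1), the scaling `f' = α f` (P-SCALE), the Eisenstein series
`E ≡ 1` (P2') and the product `g = f' E` (P3'): the structure `ModEigen (N ℓ) k φ` with
`χ = (ε ∘ pr_N) (ω ∘ pr_ℓ)⁻¹`, `c_g n = ∑_{i ≤ n} c' i · b (n - i) ≡ c' n`, `t p = φ (a p)`.
* `productEigenStatement_of : TeichStatement → ScaleStatement → EisModStatement →
    ProductFormStatement → ProductEigenStatement`   (consumed by `S48/W/WallAsm.lean`);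
* `productEigen_of` : the same for `ProductEigen`    (consumed by `S48/W/WallAsmP.lean`).
-/
import Mathlib
import Fermat.Agent.S48.W.ProductDefs
import Fermat.Agent.S48.W.P.Defs

set_option autoImplicit false
set_option linter.style.haveILetI false
set_option linter.unusedVariables false

noncomputable section

namespace Fermat.Agent.S48W

open CongruenceSubgroup UpperHalfPlane
open scoped MatrixGroups ModularForm

theorem pe_one_mem_strictPeriods (N : ℕ) :
    (1 : ℝ) ∈ ((Gamma1 N : Subgroup (GL (Fin 2) ℝ))).strictPeriods := by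
  rw [strictPeriods_Gamma1]
  exact AddSubgroup.mem_zmultiples 1

theorem pe_qCoeff_smul {N : ℕ} (α : ℂ) (f : CuspForm (Gamma1 N) 1) (n : ℕ) :
    ModularFormClass.qCoeff (α • f : CuspForm (Gamma1 N) 1) n
      = α * ModularFormClass.qCoeff f n := by
  unfold ModularFormClass.qCoeff
  have h := ModularForm.qExpansion_smul (zero_lt_one' ℝ) (pe_one_mem_strictPeriods N) α f
  have hcoe : ((α • f : CuspForm (Gamma1 N) 1) : ℍ → ℂ) = α • (f : ℍ → ℂ) := rfl
  rw [hcoe, h, PowerSeries.coeff_smul, smul_eq_mul]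

theorem pe_Gamma0_of_dvd {M N : ℕ} (h : N ∣ M) {γ : SL(2, ℤ)} (hγ : γ ∈ Gamma0 M) :
    γ ∈ Gamma0 N := by
  rw [Gamma0_mem] at hγ ⊢
  rw [ZMod.intCast_zmod_eq_zero_iff_dvd] at hγ ⊢
  exact (Int.natCast_dvd_natCast.2 h).trans hγ

theorem pe_unitsMap_eq {M N : ℕ} (h : N ∣ M) {γ : SL(2, ℤ)} (d : (ZMod M)ˣ)
    (hd : (d : ZMod M) = ((γ 1 1 : ℤ) : ZMod M)) :
    ((ZMod.unitsMap h d : (ZMod N)ˣ) : ZMod N) = ((γ 1 1 : ℤ) : ZMod N) := by
  rw [ZMod.unitsMap_val, hd, ZMod.cast_intCast h]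

theorem pe_unitsMap_unitOfCoprime {M N : ℕ} (h : N ∣ M) (p : ℕ) (hpM : Nat.Coprime p M)
    (hpN : Nat.Coprime p N) :
    ZMod.unitsMap h (ZMod.unitOfCoprime p hpM) = ZMod.unitOfCoprime p hpN := by
  apply Units.ext
  rw [ZMod.unitsMap_val, ZMod.coe_unitOfCoprime, ZMod.coe_unitOfCoprime, ZMod.cast_natCast h]

/-- **(P4')**, in the form of helper93's `ProductEigenStatement`. -/
theorem productEigenStatement_of (hT : TeichStatement) (hS : ScaleStatement)
    (hE : EisModStatement) (hP : ProductFormStatement) : ProductEigenStatement := by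
  intro N _ ε f c a hc hne hK hneb hHecke ℓ hℓ hℓN k _ _ φ _
  classical
  haveI : NeZero ℓ := ⟨hℓ.ne_zero⟩
  have hℓ2 : ℓ ≠ 2 := by
    rintro rfl
    exact hℓN (dvd_mul_right 2 N)
  obtain ⟨ω, hω⟩ := hT ℓ hℓ k φ
  obtain ⟨E, b, hb, hb0, hbn, hEneb⟩ := hE ℓ hℓ hℓ2 k φ ω hω
  obtain ⟨α, c', hα, hc', n₀, hn₀⟩ := hS c hne hK ℓ hℓ k φ
  obtain ⟨g, hg, hgq⟩ := hP N ℓ (α • f) E
  have hcf' : ∀ n, (c' n : ℂ) = ModularFormClass.qCoeff (α • f : CuspForm (Gamma1 N) 1) n :=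
    fun n => by rw [pe_qCoeff_smul, hc', hc]
  -- the coefficients of `g`
  set cg : ℕ → integralClosure ℤ ℂ := fun n => ∑ i ∈ Finset.range (n + 1), c' i * b (n - i)
    with hcg
  have hcgq : ∀ n, (cg n : ℂ) = ModularFormClass.qCoeff g n := by
    intro n
    have h1 : ((cg n : integralClosure ℤ ℂ) : ℂ) =
        ∑ i ∈ Finset.range (n + 1), (c' i : ℂ) * (b (n - i) : ℂ) := by
      show ((∑ i ∈ Finset.range (n + 1), c' i * b (n - i) : integralClosure ℤ ℂ) : ℂ) = _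
      push_cast
      rfl
    rw [h1, hgq]
    refine Finset.sum_congr rfl fun i _ => ?_
    rw [hcf', hb]
  have hφcg : ∀ n, φ (cg n) = φ (c' n) := by
    intro n
    show φ (∑ i ∈ Finset.range (n + 1), c' i * b (n - i)) = _
    rw [map_sum, Finset.sum_eq_single n]
    · rw [map_mul, Nat.sub_self, hb0, mul_one]
    · intro i hi hin
      have hlt : 0 < n - i := by
        have := Finset.mem_range.1 hi
        omega
      rw [map_mul, hbn _ hlt, mul_zero]
    · intro h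
      exact absurd (Finset.mem_range.2 (Nat.lt_succ_self n)) h
  -- the Hecke relation for `c'`
  have hHecke' : ∀ (p : ℕ) (hp : p.Prime) (hpN : Nat.Coprime p N) (n : ℕ),
      c' (p * n) + (ε (ZMod.unitOfCoprime p hpN) : integralClosure ℤ ℂ) *
        (if p ∣ n then c' (n / p) else 0) = a p * c' n := by
    intro p hp hpN n
    apply Subtype.ext
    have h : α * ((c (p * n) + (ε (ZMod.unitOfCoprime p hpN) : integralClosure ℤ ℂ) *
        (if p ∣ n then c (n / p) else 0) : integralClosure ℤ ℂ) : ℂ) =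
        α * ((a p * c n : integralClosure ℤ ℂ) : ℂ) := by rw [hHecke p hp hpN n]
    by_cases hpn : p ∣ n
    · rw [if_pos hpn] at h ⊢
      push_cast at h ⊢
      rw [hc', hc', hc']
      linear_combination h
    · rw [if_neg hpn] at h ⊢
      push_cast at h ⊢
      rw [hc', hc']
      linear_combination h
  -- the character
  have hdN : N ∣ N * ℓ := dvd_mul_right N ℓ
  have hdℓ : ℓ ∣ N * ℓ := dvd_mul_left ℓ N
  set χ : (ZMod (N * ℓ))ˣ →* (integralClosure ℤ ℂ)ˣ :=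
    (ε.comp (ZMod.unitsMap hdN)) * (ω.comp (ZMod.unitsMap hdℓ))⁻¹ with hχ
  have hχapp : ∀ d, χ d = ε (ZMod.unitsMap hdN d) * (ω (ZMod.unitsMap hdℓ d))⁻¹ := fun d => rfl
  have hχp : ∀ (p : ℕ) (hpN : Nat.Coprime p N) (hpM : Nat.Coprime p (N * ℓ)),
      ((p : ℕ) : k) * φ (χ (ZMod.unitOfCoprime p hpM) : integralClosure ℤ ℂ)
        = φ (ε (ZMod.unitOfCoprime p hpN) : integralClosure ℤ ℂ) := by
    intro p hpN hpM
    have hpℓ : Nat.Coprime p ℓ := Nat.Coprime.coprime_mul_left_right hpM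
    have h3 : φ (ω (ZMod.unitOfCoprime p hpℓ) : integralClosure ℤ ℂ) = (p : k) := by
      rw [hω, ZMod.coe_unitOfCoprime, ZMod.val_natCast]
      have h4 : ((p % ℓ : ℕ) : k) = ((p : ℕ) : k) := by
        conv_rhs => rw [← Nat.mod_add_div p ℓ]
        rw [Nat.cast_add, Nat.cast_mul, CharP.cast_eq_zero k ℓ, zero_mul, add_zero]
      exact h4
    have hp0 : ((p : ℕ) : k) ≠ 0 := by
      intro h0
      have h5 := (CharP.cast_eq_zero_iff k ℓ p).1 h0
      have h6 : ℓ ∣ Nat.gcd p ℓ := Nat.dvd_gcd h5 (dvd_refl ℓ)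
      rw [hpℓ] at h6
      exact hℓ.one_lt.ne' (Nat.dvd_one.1 h6)
    rw [hχapp, pe_unitsMap_unitOfCoprime hdN p hpM hpN, pe_unitsMap_unitOfCoprime hdℓ p hpM hpℓ,
      Units.val_mul, map_mul, map_units_inv, h3]
    field_simp
  refine ⟨{ g := g, χ := χ, neb := ?_, c := cg, hc := hcgq, ne := ⟨n₀, by rw [hφcg]; exact hn₀⟩,
            t := fun p => φ (a p), eig := ?_ }, fun p _ => rfl, hχp⟩
  · -- the nebentypus
    intro γ hγ d hd z
    have hgfun : (g : ℍ → ℂ) = ((α • f : CuspForm (Gamma1 N) 1) : ℍ → ℂ) * (E : ℍ → ℂ) :=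
      funext hg
    have h1 := hneb γ (pe_Gamma0_of_dvd hdN hγ) (ZMod.unitsMap hdN d) (pe_unitsMap_eq hdN d hd) z
    have h2 := hEneb γ (pe_Gamma0_of_dvd hdℓ hγ) (ZMod.unitsMap hdℓ d) (pe_unitsMap_eq hdℓ d hd) z
    have h3 : ((g : ℍ → ℂ) ∣[(2 : ℤ)] γ) z =
        ((((α • f : CuspForm (Gamma1 N) 1) : ℍ → ℂ) ∣[(1 : ℤ)] γ) z) *
          (((E : ℍ → ℂ) ∣[(1 : ℤ)] γ) z) := by
      rw [hgfun]
      have h4 := ModularForm.mul_slash_SL2 1 1 γ
        ((α • f : CuspForm (Gamma1 N) 1) : ℍ → ℂ) (E : ℍ → ℂ)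
      have h5 : ((1 : ℤ) + 1) = 2 := by norm_num
      rw [h5] at h4
      rw [h4, Pi.mul_apply]
    have h6 : ((((α • f : CuspForm (Gamma1 N) 1) : ℍ → ℂ) ∣[(1 : ℤ)] γ) z) =
        α * (((f : ℍ → ℂ) ∣[(1 : ℤ)] γ) z) := by
      have hcoe : ((α • f : CuspForm (Gamma1 N) 1) : ℍ → ℂ) = α • (f : ℍ → ℂ) := rfl
      rw [hcoe, ModularForm.SL_smul_slash, Pi.smul_apply, smul_eq_mul]
    rw [h3, h6, h1, h2, hg z, hχapp]
    have hcoe : ((α • f : CuspForm (Gamma1 N) 1) : ℍ → ℂ) z = α * f z := rfl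
    rw [hcoe, Units.val_mul]
    push_cast
    ring
  · -- the eigen-equations
    intro p hpM n
    have hpN : Nat.Coprime (p : ℕ) N := Nat.Coprime.coprime_mul_right_right hpM
    have h1 := congrArg φ (hHecke' p p.2 hpN n)
    rw [map_add, map_mul, map_mul] at h1
    show φ (cg ((p : ℕ) * n)) + ((p : ℕ) : k) *
        φ (χ (ZMod.unitOfCoprime (p : ℕ) hpM) : integralClosure ℤ ℂ) *
        (if (p : ℕ) ∣ n then φ (cg (n / (p : ℕ))) else 0) = φ (a p) * φ (cg n)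
    rw [hφcg ((p : ℕ) * n), hφcg n, hχp p hpN hpM, ← h1]
    congr 1
    by_cases hpn : (p : ℕ) ∣ n
    · rw [if_pos hpn, if_pos hpn, hφcg]
    · rw [if_neg hpn, if_neg hpn, map_zero]

/-- **(P4')**, in the form `ProductEigen` of `P/Defs.lean`. -/
theorem productEigen_of (hT : TeichStatement) (hS : ScaleStatement)
    (hE : EisModStatement) (hP : ProductFormStatement) : ProductEigen := by
  intro N _ ε f c a hc hne hK hneb hHecke ℓ hℓ hℓN k _ _ φ
  have hNe : NeZero (N * ℓ) := ⟨mul_ne_zero (NeZero.ne N) hℓ.ne_zero⟩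
  obtain ⟨e, he1, he2⟩ := productEigenStatement_of hT hS hE hP N ε f c a hc hne hK hneb hHecke
    ℓ hℓ hℓN k φ
  exact ⟨hNe, e, he1, fun p hpM hpN => he2 p hpN hpM⟩

end Fermat.Agent.S48W
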