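/-
S48 wall (W), block P, leaf P2' (helper78): **the Eisenstein series modulo `φ`**.

From helper33's `Eis1Statement` (the weight-one Eisenstein series `E₁^ψ` of an odd Dirichlet
character) for `ψ = ω⁻¹` (`ω` a Teichmüller character with respect to `φ : ℤ̄ → k`, `char k = ℓ`
odd):  `E = 2 ℓ E₁^ψ = -∑_{a<ℓ} a ψ(a) + 2 ℓ ∑_n (∑_{d ∣ n} ψ(d)) qⁿ` has coefficients in `ℤ̄`,
constant term `≡ -(ℓ - 1) = 1` and all other coefficients `≡ 0` modulo `ker φ`.
* `em_teich_neg_one` : `ω (-1) = -1`;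
* `eisModStatement_of : Eis1Statement → EisModStatement`.
-/
import Mathlib
import Fermat.Agent.S48.Eis1.Statement
import Fermat.Agent.S48.W.P.Defs

set_option autoImplicit false
set_option linter.style.haveILetI false
set_option linter.unusedVariables false

noncomputable section

namespace Fermat.Agent.S48W

open CongruenceSubgroup UpperHalfPlane
open scoped MatrixGroups ModularForm

theorem em_one_mem_strictPeriods (N : ℕ) :
    (1 : ℝ) ∈ ((Gamma1 N : Subgroup (GL (Fin 2) ℝ))).strictPeriods := by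
  rw [strictPeriods_Gamma1]
  exact AddSubgroup.mem_zmultiples 1

theorem em_val_cast {ℓ : ℕ} [NeZero ℓ] {k : Type} [Field k] [CharP k ℓ] (x : ZMod ℓ) :
    ((x.val : ℕ) : k) = ZMod.castHom (dvd_refl ℓ) k x := by
  rw [ZMod.castHom_apply, ZMod.natCast_val]

/-- A Teichmüller character is odd: `ω (-1) = -1` (`ℓ ≠ 2`). -/
theorem em_teich_neg_one {ℓ : ℕ} (hℓ : ℓ.Prime) (hℓ2 : ℓ ≠ 2) {k : Type} [Field k] [CharP k ℓ]
    (φ : integralClosure ℤ ℂ →+* k) (ω : (ZMod ℓ)ˣ →* (integralClosure ℤ ℂ)ˣ)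
    (hω : ∀ d : (ZMod ℓ)ˣ, φ (ω d : integralClosure ℤ ℂ) = (((d : ZMod ℓ).val : ℕ) : k)) :
    ω (-1) = -1 := by
  haveI : NeZero ℓ := ⟨hℓ.ne_zero⟩
  have h1 : (ω (-1)) * (ω (-1)) = 1 := by
    rw [← map_mul, neg_one_mul, neg_neg, map_one]
  have h2 : ((ω (-1) : (integralClosure ℤ ℂ)ˣ) : integralClosure ℤ ℂ) *
      ((ω (-1) : (integralClosure ℤ ℂ)ˣ) : integralClosure ℤ ℂ) = 1 := by
    rw [← Units.val_mul, h1, Units.val_one]
  rcases mul_self_eq_one_iff.1 h2 with h | h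
  · exfalso
    have h3 := hω (-1)
    rw [h, map_one, em_val_cast, Units.val_neg, Units.val_one, map_neg, map_one] at h3
    have h4 : ((2 : ℕ) : k) = 0 := by
      have : (2 : k) = 1 + 1 := by norm_num
      rw [Nat.cast_ofNat, this]
      nth_rewrite 1 [h3]
      ring
    have h5 := (CharP.cast_eq_zero_iff k ℓ 2).1 h4
    exact hℓ2 ((Nat.prime_dvd_prime_iff_eq hℓ Nat.prime_two).1 h5)
  · apply Units.ext
    rw [h, Units.val_neg, Units.val_one]

/-- **(P2')** the Eisenstein series modulo `φ`, from the weight-one Eisenstein series. -/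
theorem eisModStatement_of (h1 : Fermat.Agent.S48.Eis1.Eis1Statement) : EisModStatement := by
  intro ℓ hℓ hℓ2 k _ _ φ ω hω
  classical
  haveI : NeZero ℓ := ⟨hℓ.ne_zero⟩
  -- the characters
  set ψZ : MulChar (ZMod ℓ) (integralClosure ℤ ℂ) := MulChar.ofUnitHom ω⁻¹ with hψZ
  set ψ : DirichletCharacter ℂ ℓ := ψZ.ringHomComp (algebraMap (integralClosure ℤ ℂ) ℂ) with hψ
  have hψapp : ∀ x : ZMod ℓ, ψ x = ((ψZ x : integralClosure ℤ ℂ) : ℂ) := fun x => rfl
  have hψZu : ∀ d : (ZMod ℓ)ˣ, ψZ (d : ZMod ℓ) =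
      (((ω d)⁻¹ : (integralClosure ℤ ℂ)ˣ) : integralClosure ℤ ℂ) := by
    intro d
    rw [hψZ, MulChar.ofUnitHom_coe]
    rfl
  have hodd : ψ.Odd := by
    show ψ (-1) = -1
    have hm : ((-1 : (ZMod ℓ)ˣ) : ZMod ℓ) = -1 := by
      rw [Units.val_neg, Units.val_one]
    rw [← hm, hψapp, hψZu, em_teich_neg_one hℓ hℓ2 φ ω hω, inv_neg, inv_one, Units.val_neg,
      Units.val_one]
    push_cast
    rfl
  obtain ⟨E₀, hneb, hc0, hcn⟩ := h1 ℓ ψ hodd
  set E : ModularForm (Gamma1 ℓ) 1 := (((2 * ℓ : ℕ) : ℂ)) • E₀ with hE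
  have hEcoe : (E : ℍ → ℂ) = (((2 * ℓ : ℕ) : ℂ)) • (E₀ : ℍ → ℂ) := rfl
  set b : ℕ → integralClosure ℤ ℂ := fun n =>
    if n = 0 then -∑ a ∈ Finset.range ℓ, ((a : ℕ) : integralClosure ℤ ℂ) * ψZ (a : ZMod ℓ)
    else ((2 * ℓ : ℕ) : integralClosure ℤ ℂ) * ∑ d ∈ n.divisors, ψZ (d : ZMod ℓ) with hb
  have hℓ0 : (ℓ : ℂ) ≠ 0 := Nat.cast_ne_zero.2 hℓ.ne_zero
  refine ⟨E, b, ?_, ?_, ?_, ?_⟩
  · -- the `q`-coefficients
    intro n
    unfold ModularFormClass.qCoeff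
    rw [hEcoe, ModularForm.qExpansion_smul (zero_lt_one' ℝ) (em_one_mem_strictPeriods ℓ) _ E₀,
      PowerSeries.coeff_smul, smul_eq_mul]
    by_cases hn : n = 0
    · subst hn
      rw [hc0]
      show ((-∑ a ∈ Finset.range ℓ, ((a : ℕ) : integralClosure ℤ ℂ) * ψZ (a : ZMod ℓ) :
        integralClosure ℤ ℂ) : ℂ) = _
      push_cast
      have h2 : ∀ a : ℕ, ((ψZ (a : ZMod ℓ) : integralClosure ℤ ℂ) : ℂ) = ψ (a : ZMod ℓ) :=
        fun a => rfl
      simp only [h2]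
      field_simp
    · rw [hcn n (Nat.pos_of_ne_zero hn)]
      show ((if n = 0 then _ else ((2 * ℓ : ℕ) : integralClosure ℤ ℂ) *
        ∑ d ∈ n.divisors, ψZ (d : ZMod ℓ) : integralClosure ℤ ℂ) : ℂ) = _
      rw [if_neg hn]
      push_cast
      rfl
  · -- `φ (b 0) = 1`
    show φ (if (0 : ℕ) = 0 then
      -∑ a ∈ Finset.range ℓ, ((a : ℕ) : integralClosure ℤ ℂ) * ψZ (a : ZMod ℓ) else _) = 1
    rw [if_pos rfl, map_neg, map_sum]
    have hterm : ∀ a ∈ Finset.range ℓ,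
        φ (((a : ℕ) : integralClosure ℤ ℂ) * ψZ (a : ZMod ℓ)) =
          (1 : k) - (if a = 0 then 1 else 0) := by
      intro a ha
      rw [map_mul, map_natCast]
      by_cases ha0 : a = 0
      · subst ha0
        rw [Nat.cast_zero, zero_mul, if_pos rfl, sub_self]
      · rw [if_neg ha0, sub_zero]
        have halt : a < ℓ := Finset.mem_range.1 ha
        have hcop : Nat.Coprime a ℓ := by
          rw [Nat.coprime_comm, Nat.Prime.coprime_iff_not_dvd hℓ]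
          intro hdvd
          exact absurd (Nat.le_of_dvd (Nat.pos_of_ne_zero ha0) hdvd) (not_le.2 halt)
        have hak : ((a : ℕ) : k) ≠ 0 := by
          intro h0
          have := (CharP.cast_eq_zero_iff k ℓ a).1 h0
          exact absurd (Nat.le_of_dvd (Nat.pos_of_ne_zero ha0) this) (not_le.2 halt)
        have hu : ((a : ℕ) : ZMod ℓ) = ((ZMod.unitOfCoprime a hcop : (ZMod ℓ)ˣ) : ZMod ℓ) :=
          (ZMod.coe_unitOfCoprime a hcop).symm
        rw [hu, hψZu, map_units_inv, hω, ZMod.coe_unitOfCoprime, ZMod.val_natCast,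
          Nat.mod_eq_of_lt halt, mul_inv_cancel₀ hak]
    rw [Finset.sum_congr rfl hterm, Finset.sum_sub_distrib, Finset.sum_const, Finset.card_range,
      Finset.sum_ite_eq' (Finset.range ℓ) 0 (fun _ => (1 : k)),
      if_pos (Finset.mem_range.2 hℓ.pos), nsmul_eq_mul, mul_one, CharP.cast_eq_zero k ℓ]
    ring
  · -- `φ (b n) = 0`
    intro n hn
    show φ (if n = 0 then _ else ((2 * ℓ : ℕ) : integralClosure ℤ ℂ) *
      ∑ d ∈ n.divisors, ψZ (d : ZMod ℓ)) = 0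
    rw [if_neg hn.ne', map_mul, map_natCast, Nat.cast_mul, CharP.cast_eq_zero k ℓ, mul_zero,
      zero_mul]
  · -- the nebentypus
    intro γ hγ d hd z
    rw [hEcoe, ModularForm.SL_smul_slash, Pi.smul_apply, Pi.smul_apply, smul_eq_mul, smul_eq_mul,
      hneb γ hγ z, ← hd, hψapp, hψZu]
    ring

end Fermat.Agent.S48W
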