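/-
S48 wall (W), BLOCK P, leaf P-SCALE (helper2): `scaleStatement : ScaleStatement`.

A nonzero family `c n` of algebraic integers in a number field `K` can be scaled by `α ≠ 0` to a
family of algebraic integers which is nonzero modulo `ker φ`.

Proof.  `R = 𝓞 K` is a Dedekind domain and `P = ker (φ ∘ ι) ≠ 0` (`ι : 𝓞 K → ℤ̄`), so `R_P` is a
valuation ring.  The ideal generated by the `c n` is finitely generated (by `c n`, `n ∈ F`); one
of the generators, `c n₀`, divides the others in `R_P`, so `c n₀ ∣ s c n` in `R` for all `n`, for a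
suitable `s ∉ P`.  Take `α = s / c n₀`.
-/
import Fermat.Agent.S48.W.P.Defs

set_option autoImplicit false

namespace Fermat.Agent.S48W

open NumberField

/-- In a valuation ring, a finite nonempty family has a member which divides all the others. -/
theorem scale_exists_min_dvd {A : Type*} [CommRing A] [IsDomain A] [ValuationRing A]
    {ι : Type*} (F : Finset ι) (hF : F.Nonempty) (f : ι → A) :
    ∃ i ∈ F, ∀ j ∈ F, f i ∣ f j := by
  classical
  induction hF using Finset.Nonempty.cons_induction with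
  | singleton a => exact ⟨a, Finset.mem_singleton_self a, fun j hj => by
      rw [Finset.mem_singleton.mp hj]⟩
  | cons a s ha hs ih =>
    obtain ⟨i, hi, hdiv⟩ := ih
    rcases ValuationRing.dvd_total (f a) (f i) with h | h
    · refine ⟨a, Finset.mem_cons_self a s, fun j hj => ?_⟩
      rcases Finset.mem_cons.mp hj with rfl | hj
      · exact dvd_rfl
      · exact h.trans (hdiv j hj)
    · refine ⟨i, Finset.mem_cons.mpr (Or.inr hi), fun j hj => ?_⟩
      rcases Finset.mem_cons.mp hj with rfl | hj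
      · exact h
      · exact hdiv j hj

/-- In a Dedekind domain `R` with a nonzero prime `P`: a nonzero family `x n` has a member `x n₀`
which divides all the `s * x n`, for some `s ∉ P`. -/
theorem scale_exists_dvd {R : Type*} [CommRing R] [IsDedekindDomain R]
    (P : Ideal R) [P.IsPrime] (hP : P ≠ ⊥) (x : ℕ → R) (hx : ∃ n, x n ≠ 0) :
    ∃ n₀ : ℕ, ∃ s : R, s ∉ P ∧ x n₀ ≠ 0 ∧ ∀ n, x n₀ ∣ s * x n := by
  classical
  have hdvr : IsDiscreteValuationRing (Localization.AtPrime P) :=
    IsLocalization.AtPrime.isDiscreteValuationRing_of_dedekind_domain R hP _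
  have hinj : Function.Injective (algebraMap R (Localization.AtPrime P)) :=
    IsLocalization.injective _ P.primeCompl_le_nonZeroDivisors
  obtain ⟨F, hFsub, hFspan⟩ := (Submodule.fg_span_iff_fg_span_finset_subset (Set.range x)).mp
    (IsNoetherian.noetherian (Ideal.span (Set.range x)))
  have hmemspan : ∀ n, x n ∈ Submodule.span R (F : Set R) := fun n => by
    rw [← hFspan]
    exact Submodule.subset_span ⟨n, rfl⟩
  have hFne : F.Nonempty := by
    rw [Finset.nonempty_iff_ne_empty]
    rintro rfl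
    obtain ⟨n, hn⟩ := hx
    have := hmemspan n
    simp at this
    exact hn this
  obtain ⟨g₀, hg₀F, hg₀⟩ :=
    scale_exists_min_dvd F hFne (fun g => algebraMap R (Localization.AtPrime P) g)
  obtain ⟨n₀, rfl⟩ := hFsub hg₀F
  have h1 : ∀ g ∈ F, ∃ s, s ∉ P ∧ x n₀ ∣ s * g := by
    intro g hg
    obtain ⟨y, hy⟩ := hg₀ g hg
    obtain ⟨⟨r, t⟩, hrt⟩ := IsLocalization.surj P.primeCompl y
    refine ⟨t, t.2, ⟨r, ?_⟩⟩
    apply hinj
    simp only at hrt hy
    rw [map_mul, map_mul, hy, ← hrt]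
    ring
  have h2 : ∀ F' : Finset R, (∀ g ∈ F', ∃ s, s ∉ P ∧ x n₀ ∣ s * g) →
      ∃ s, s ∉ P ∧ ∀ g ∈ F', x n₀ ∣ s * g := by
    intro F'
    induction F' using Finset.induction_on with
    | empty =>
      intro _
      exact ⟨1, fun h => (Ideal.IsPrime.ne_top inferInstance) ((Ideal.eq_top_iff_one P).mpr h),
        fun g hg => absurd hg (Finset.notMem_empty g)⟩
    | insert a F'' ha ih =>
      intro h
      obtain ⟨s, hs, hsF⟩ := ih (fun g hg => h g (Finset.mem_insert_of_mem hg))
      obtain ⟨sa, hsa, hsaa⟩ := h a (Finset.mem_insert_self a F'')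
      refine ⟨sa * s, fun hmem => ?_, fun g hg => ?_⟩
      · rcases Ideal.IsPrime.mem_or_mem inferInstance hmem with h' | h'
        · exact hsa h'
        · exact hs h'
      · rcases Finset.mem_insert.mp hg with rfl | hg
        · rw [mul_right_comm]
          exact Dvd.dvd.mul_right hsaa s
        · rw [mul_assoc]
          exact Dvd.dvd.mul_left (hsF g hg) sa
  obtain ⟨s, hs, hsF⟩ := h2 F h1
  have h3 : ∀ g ∈ Submodule.span R (F : Set R), x n₀ ∣ s * g := by
    intro g hg
    induction hg using Submodule.span_induction with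
    | mem g hg => exact hsF g hg
    | zero => simp
    | add a b _ _ ha hb => rw [mul_add]; exact dvd_add ha hb
    | smul r a _ ha => rw [smul_eq_mul, mul_left_comm]; exact Dvd.dvd.mul_left ha r
  refine ⟨n₀, s, hs, ?_, fun n => h3 _ (hmemspan n)⟩
  intro h0
  obtain ⟨n, hn⟩ := hx
  have h4 := h3 (x n) (hmemspan n)
  rw [h0, zero_dvd_iff] at h4
  rcases mul_eq_zero.mp h4 with h5 | h5
  · exact hs (h5 ▸ P.zero_mem)
  · exact hn h5

/-- **(P-SCALE)**. -/
theorem scaleStatement : ScaleStatement := by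
  intro c hc hK ℓ hℓ k _ _ φ
  obtain ⟨K, hKfin, hcK⟩ := hK
  have hnf : NumberField K := { to_charZero := inferInstance, to_finiteDimensional := hKfin }
  -- the integers of `K` as algebraic integers
  have hint : ∀ y : 𝓞 K, IsIntegral ℤ (((y : K) : ℂ)) := fun y =>
    (isIntegral_algebraMap_iff (algebraMap K ℂ).injective).mpr y.2
  let ι : 𝓞 K →+* integralClosure ℤ ℂ :=
    { toFun := fun y => ⟨((y : K) : ℂ), hint y⟩
      map_one' := by apply Subtype.ext; simp
      map_mul' := fun a b => by apply Subtype.ext; simp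
      map_zero' := by apply Subtype.ext; simp
      map_add' := fun a b => by apply Subtype.ext; simp }
  have hι : ∀ y : 𝓞 K, ((ι y : integralClosure ℤ ℂ) : ℂ) = ((y : K) : ℂ) := fun _ => rfl
  -- the family in `𝓞 K`
  have hxint : ∀ n, IsIntegral ℤ (⟨(c n : ℂ), hcK n⟩ : K) := fun n =>
    (isIntegral_algebraMap_iff (algebraMap K ℂ).injective).mp (c n).2
  let x : ℕ → 𝓞 K := fun n => ⟨⟨(c n : ℂ), hcK n⟩, hxint n⟩
  have hxc : ∀ n, (((x n : 𝓞 K) : K) : ℂ) = (c n : ℂ) := fun _ => rfl
  have hx : ∃ n, x n ≠ 0 := by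
    obtain ⟨n, hn⟩ := hc
    refine ⟨n, fun h => hn ?_⟩
    apply Subtype.ext
    have h1 := congrArg (fun y : 𝓞 K => ((y : K) : ℂ)) h
    simpa [hxc] using h1
  -- the prime
  let ψ : 𝓞 K →+* k := φ.comp ι
  have hPprime : (RingHom.ker ψ).IsPrime := RingHom.ker_isPrime ψ
  have hP : RingHom.ker ψ ≠ ⊥ := by
    intro h
    have h1 : (ℓ : 𝓞 K) ∈ RingHom.ker ψ := by
      rw [RingHom.mem_ker, map_natCast]
      exact CharP.cast_eq_zero k ℓ
    rw [h, Ideal.mem_bot] at h1
    exact hℓ.ne_zero (by exact_mod_cast h1)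
  obtain ⟨n₀, s, hs, hn₀, hdiv⟩ := scale_exists_dvd (RingHom.ker ψ) hP x hx
  choose w hw using hdiv
  have hs0 : s ≠ 0 := fun h => hs (h ▸ (RingHom.ker ψ).zero_mem)
  have hsC : (((s : 𝓞 K) : K) : ℂ) ≠ 0 := by
    intro h
    apply hs0
    have : ((s : 𝓞 K) : K) = 0 := by exact_mod_cast h
    exact_mod_cast this
  have hxC : (c n₀ : ℂ) ≠ 0 := by
    intro h
    apply hn₀
    have h1 : (((x n₀ : 𝓞 K) : K) : ℂ) = 0 := by rw [hxc]; exact h
    have : ((x n₀ : 𝓞 K) : K) = 0 := by exact_mod_cast h1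
    exact_mod_cast this
  refine ⟨(((s : 𝓞 K) : K) : ℂ) / (c n₀ : ℂ), fun n => ι (w n), div_ne_zero hsC hxC,
    fun n => ?_, n₀, ?_⟩
  · rw [hι]
    have h1 := congrArg (fun y : 𝓞 K => ((y : K) : ℂ)) (hw n)
    simp only [map_mul] at h1
    have h2 : (((s : 𝓞 K) : K) : ℂ) * (c n : ℂ) = (c n₀ : ℂ) * (((w n : 𝓞 K) : K) : ℂ) := by
      rw [← hxc n, ← hxc n₀]
      exact_mod_cast h1
    field_simp
    rw [h2]
    ring
  · have h1 : w n₀ = s := by
      have := hw n₀
      rw [mul_comm] at this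
      exact (mul_left_cancel₀ hn₀ this).symm
    show φ (ι (w n₀)) ≠ 0
    rw [h1]
    exact hs

end Fermat.Agent.S48W
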