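/-
S48 wall (W), block P, leaf P1 (helper78): **the Teichmüller character**.

`φ : ℤ̄ → k`, `char k = ℓ`.  The `(ℓ-1)`-th roots of unity of `ℤ̄` map injectively to `k`
(`X ^ (ℓ-1) - 1` is separable over `k`), hence onto the roots of `X ^ (ℓ-1) - 1` in `k`, which
are the images of the elements of `(ℤ/ℓ)ˣ`.
* `teich_inj_on_roots` : `φ` is injective on the `n`-th roots of unity, `n ≠ 0` in `k`;
* `teich_exists_root`  : a root of unity `ζ ∈ ℤ̄ˣ`, `ζ ^ (ℓ-1) = 1`, with `φ ζ` primitive;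
* `teichStatement : TeichStatement`.
-/
import Mathlib
import Fermat.Agent.S48.W.P.Defs

set_option autoImplicit false
set_option linter.style.haveILetI false

noncomputable section

namespace Fermat.Agent.S48W

open Polynomial

/-- `φ` is injective on the `n`-th roots of unity of `ℤ̄` if `n ≠ 0` in `k`. -/
theorem teich_inj_on_roots {k : Type} [Field k] (φ : integralClosure ℤ ℂ →+* k) {n : ℕ}
    (hn : (n : k) ≠ 0) {z : integralClosure ℤ ℂ} (hz : IsPrimitiveRoot z n)
    {x y : integralClosure ℤ ℂ} (hx : x ^ n = 1) (hy : y ^ n = 1) (hxy : φ x = φ y) : x = y := by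
  classical
  have hpos : 0 < n := Nat.pos_of_ne_zero (by rintro rfl; simp at hn)
  have hprod := X_pow_sub_one_eq_prod hpos hz
  have hmap : (X ^ n - 1 : k[X]) =
      (((nthRootsFinset n (1 : integralClosure ℤ ℂ)).val.map φ).map
        (fun a => X - C a)).prod := by
    have h := congrArg (Polynomial.map φ) hprod
    rw [Polynomial.map_sub, Polynomial.map_pow, Polynomial.map_X, Polynomial.map_one,
      Polynomial.map_prod] at h
    rw [h, Multiset.map_map, Finset.prod_eq_multiset_prod]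
    congr 1
    refine Multiset.map_congr rfl fun a _ => ?_
    simp
  have hsep : (X ^ n - 1 : k[X]).Separable := by
    have h := separable_X_pow_sub_C (1 : k) hn one_ne_zero
    simpa using h
  have hnodup := nodup_roots hsep
  rw [hmap, roots_multiset_prod_X_sub_C] at hnodup
  exact Multiset.inj_on_of_nodup_map hnodup x
    ((mem_nthRootsFinset hpos 1).2 hx) y ((mem_nthRootsFinset hpos 1).2 hy) hxy

/-- A root of unity `ζ ∈ ℤ̄ˣ` of order dividing `n` whose image in `k` is a PRIMITIVE `n`-th root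
of unity (`n ≠ 0` in `k`). -/
theorem teich_exists_root {k : Type} [Field k] (φ : integralClosure ℤ ℂ →+* k) {n : ℕ}
    (hn : (n : k) ≠ 0) :
    ∃ ζ : (integralClosure ℤ ℂ)ˣ, ζ ^ n = 1 ∧
      IsPrimitiveRoot (φ (ζ : integralClosure ℤ ℂ)) n := by
  have hn0 : n ≠ 0 := by rintro rfl; simp at hn
  have hpos : 0 < n := Nat.pos_of_ne_zero hn0
  have hprim := Complex.isPrimitiveRoot_exp n hn0
  set z : integralClosure ℤ ℂ := ⟨_, hprim.isIntegral hpos⟩ with hzdef
  have hz : IsPrimitiveRoot z n := by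
    refine IsPrimitiveRoot.of_map_of_injective (f := (integralClosure ℤ ℂ).val) ?_
      Subtype.val_injective
    exact hprim
  have hzn : z ^ n = 1 := hz.pow_eq_one
  have hzu : IsUnit z := by
    refine IsUnit.of_mul_eq_one (z ^ (n - 1)) ?_
    rw [← pow_succ', Nat.sub_add_cancel hpos, hzn]
  obtain ⟨ζ, hζ⟩ := hzu
  refine ⟨ζ, ?_, ?_⟩
  · apply Units.ext
    rw [Units.val_pow_eq_pow_val, hζ, hzn, Units.val_one]
  · rw [hζ]
    refine IsPrimitiveRoot.mk_of_lt _ hpos (by rw [← map_pow, hzn, map_one]) fun m hm0 hmn h1 => ?_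
    rw [← map_pow, ← map_one φ] at h1
    have h2 : z ^ m = 1 := teich_inj_on_roots φ hn hz
      (by rw [← pow_mul, Nat.mul_comm, pow_mul, hzn, one_pow]) (one_pow n) h1
    exact hz.pow_ne_one_of_pos_of_lt hm0.ne' hmn h2

/-- **(P1) the Teichmüller character**. -/
theorem teichStatement : TeichStatement := by
  intro ℓ hℓ k _ _ φ
  haveI : Fact ℓ.Prime := ⟨hℓ⟩
  have hℓ1 : 0 < ℓ - 1 := Nat.sub_pos_of_lt hℓ.one_lt
  have hn : ((ℓ - 1 : ℕ) : k) ≠ 0 := by
    intro h
    have h1 := (CharP.cast_eq_zero_iff k ℓ (ℓ - 1)).1 h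
    exact absurd (Nat.le_of_dvd hℓ1 h1) (by omega)
  obtain ⟨ζ, hζ1, hζ⟩ := teich_exists_root φ hn
  -- the reduction map `(ℤ/ℓ)ˣ → k`
  have hcast : ∀ d : (ZMod ℓ)ˣ, (((d : ZMod ℓ).val : ℕ) : k) =
      ZMod.castHom (dvd_refl ℓ) k (d : ZMod ℓ) := by
    intro d
    rw [ZMod.castHom_apply, ZMod.natCast_val]
  obtain ⟨g, hg⟩ := IsCyclic.exists_generator (α := (ZMod ℓ)ˣ)
  have hgord : orderOf g = ℓ - 1 := by
    rw [orderOf_eq_card_of_forall_mem_zpowers hg, Nat.card_eq_fintype_card, ZMod.card_units]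
  have hgx : (ZMod.castHom (dvd_refl ℓ) k (g : ZMod ℓ)) ^ (ℓ - 1) = 1 := by
    rw [← map_pow, ← Units.val_pow_eq_pow_val, ZMod.units_pow_card_sub_one_eq_one, Units.val_one,
      map_one]
  haveI : NeZero (ℓ - 1) := ⟨hℓ1.ne'⟩
  obtain ⟨i, -, hi⟩ := hζ.eq_pow_of_pow_eq_one hgx
  have hord : orderOf (ζ ^ i) ∣ orderOf g := by
    rw [hgord]
    refine orderOf_dvd_of_pow_eq_one ?_
    rw [← pow_mul, Nat.mul_comm, pow_mul, hζ1, one_pow]
  refine ⟨monoidHomOfForallMemZpowers hg hord, fun d => ?_⟩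
  rw [hcast]
  obtain ⟨m, rfl⟩ : ∃ m : ℕ, g ^ m = d := by
    have h1 : d ∈ Submonoid.powers g := mem_powers_iff_mem_zpowers.2 (hg d)
    exact h1
  rw [map_pow, monoidHomOfForallMemZpowers_apply_gen, Units.val_pow_eq_pow_val,
    Units.val_pow_eq_pow_val, Units.val_pow_eq_pow_val, map_pow, map_pow, map_pow, hi]

end Fermat.Agent.S48W
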