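/-
S48 wall (W), block P (owner helper78): **assembly**.
`ProductEigenStatement` (and `ProductEigen`) from the single input `Eis1Statement`
(the weight-one Eisenstein series, helper33, `S48/Eis1/*`).
Leaves: P1 `teichStatement` (helper78), P-SCALE `scaleStatement` (helper2), P3'
`productFormStatement` (helper13), P2' `eisModStatement_of` (helper78), P4'
`productEigenStatement_of` (helper78).
-/
import Mathlib
import Fermat.Agent.S48.W.P.Teich
import Fermat.Agent.S48.W.P.Scale
import Fermat.Agent.S48.W.P.Product
import Fermat.Agent.S48.W.P.EisMod
import Fermat.Agent.S48.W.P.Eigen

set_option autoImplicit false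

noncomputable section

namespace Fermat.Agent.S48W

/-- **Block P** from the weight-one Eisenstein series. -/
theorem productEigenStatement_of_eis1 (h : Fermat.Agent.S48.Eis1.Eis1Statement) :
    ProductEigenStatement :=
  productEigenStatement_of teichStatement scaleStatement (eisModStatement_of h)
    productFormStatement

/-- **Block P** (form `ProductEigen`) from the weight-one Eisenstein series. -/
theorem productEigen_of_eis1 (h : Fermat.Agent.S48.Eis1.Eis1Statement) : ProductEigen :=
  productEigen_of teichStatement scaleStatement (eisModStatement_of h) productFormStatement

end Fermat.Agent.S48W
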