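/-
S48 wall (W), block P (owner helper78): **final, unconditional statements**.
`productEigenStatement : ProductEigenStatement` and `productEigen : ProductEigen`,
from `productEigenStatement_of_eis1` and helper33/helper7's weight-one Eisenstein series
`Fermat.Agent.S48.Eis1.eis1Statement`.
-/
import Mathlib
import Fermat.Agent.S48.W.P.Main
import Fermat.Agent.S48.Eis1.Final

set_option autoImplicit false

noncomputable section

namespace Fermat.Agent.S48W

/-- **Block P**, unconditional. -/
theorem productEigenStatement : ProductEigenStatement :=
  productEigenStatement_of_eis1 Fermat.Agent.S48.Eis1.eis1Statement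

/-- **Block P** (form `ProductEigen`), unconditional. -/
theorem productEigen : ProductEigen :=
  productEigen_of_eis1 Fermat.Agent.S48.Eis1.eis1Statement

end Fermat.Agent.S48W
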